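/-
Programme S33 (masterplan 1237, convener helper3), brick O3 FLAT⇒ORD (row 772; helper42), ABSTRACT ASSEMBLY.

`Λ` free of rank 2 over a commutative ring `O` with a basis `b` of eigenvectors of `ρ σ0` (`ρ σ0 (b 0) = α • b 0`,
`ρ σ0 (b 1) = β • b 1`, `β - 1` topologically nilpotent for the `p`-adic topology, `O` `p`-adically
separated), `ρ : I →* End_O Λ` with `det ρ τ = ε τ`.  Suppose that for every `n` there is an additive
subgroup `L n ≤ Λ` ("the preimage of the connected part of `Λ/p^n`") such that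

* `hquot` : `ρ σ v - v ∈ L n` for all `σ`, `v`           (inertia acts trivially on the étale quotient);
* `hsurj` : `σ0 - 1` is surjective on `L n` modulo `p^n Λ`  (all constituents of the connected part are `ω`).

Then `(ρ σ - 1) Λ ⊆ O ∙ b 0`, `ρ τ (b 0) = ε τ • b 0`, hence `(ρ τ - ε τ)(ρ σ - 1) = 0`.

Proof: `L n = (σ0 - 1)^k (L n) + p^n Λ` for all `k`; the `b 1`-coordinate of `(σ0 - 1)^k u` is
`(β - 1)^k • (coordinate of u)`, which lies in `(p^n)` for `k` large; so the `b 1`-coordinate of every element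
of `L n` lies in `(p^n)`; apply this to `ρ σ v - v ∈ ⋂ L n` and use separatedness.  Mathlib only.
-/
import Mathlib

set_option autoImplicit false

namespace Fermat.Agent.S33P.FlatOrd42

open Module

section

variable {O : Type*} [CommRing O] {Λ : Type*} [AddCommGroup Λ] [Module O Λ]
variable (b : Basis (Fin 2) O Λ)

/-- Expansion of a vector in a basis indexed by `Fin 2`. -/
theorem eq_repr_add (v : Λ) : v = b.repr v 0 • b 0 + b.repr v 1 • b 1 := by
  conv_lhs => rw [← b.sum_repr v]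
  rw [Fin.sum_univ_two]

/-- The `b 1`-coordinate of `x • b 0 + y • b 1`. -/
theorem repr_one_add (x y : O) : b.repr (x • b 0 + y • b 1) 1 = y := by
  rw [map_add, map_smul, map_smul, b.repr_self, b.repr_self, Finsupp.add_apply, Finsupp.smul_apply,
    Finsupp.smul_apply, Finsupp.single_apply, Finsupp.single_apply]
  simp

variable {b}

/-- The `b 1`-coordinate of `(A - 1)^k u` when `b` is an eigenbasis of `A`. -/
theorem repr_one_pow_sub_one (A : Module.End O Λ) {α β : O} (hα : A (b 0) = α • b 0)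
    (hβ : A (b 1) = β • b 1) (k : ℕ) (u : Λ) :
    b.repr (((A - 1) ^ k) u) 1 = (β - 1) ^ k * b.repr u 1 := by
  induction k generalizing u with
  | zero => rw [pow_zero, pow_zero, one_mul, Module.End.one_apply]
  | succ k ih =>
    rw [pow_succ, Module.End.mul_apply, ih, pow_succ, mul_assoc]
    congr 1
    have hu := eq_repr_add b u
    have h1 : (A - 1) u = ((α - 1) * b.repr u 0) • b 0 + ((β - 1) * b.repr u 1) • b 1 := by
      conv_lhs => rw [hu]
      rw [LinearMap.sub_apply, Module.End.one_apply, map_add, map_smul, map_smul, hα, hβ]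
      simp only [smul_smul, sub_mul, one_mul, sub_smul]
      rw [mul_comm (b.repr u 0) α, mul_comm (b.repr u 1) β]
      abel
    rw [h1, repr_one_add]

end

section Main

variable {O : Type*} [CommRing O] (p : O)
variable {Λ : Type*} [AddCommGroup Λ] [Module O Λ] (b : Basis (Fin 2) O Λ)
variable {I : Type*} [Monoid I] (ρ : I →* Module.End O Λ)

/-- Iterating the surjectivity of `σ0 - 1` on `L` modulo `p^n Λ`. -/
theorem exists_pow_sub_one_preimage (A : Module.End O Λ) (q : O) (L : AddSubgroup Λ)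
    (hsurj : ∀ w ∈ L, ∃ w' ∈ L, ∃ u : Λ, A w' - w' - w = q • u) (k : ℕ) :
    ∀ w ∈ L, ∃ w' ∈ L, ∃ u : Λ, ((A - 1) ^ k) w' - w = q • u := by
  induction k with
  | zero =>
    intro w hw
    exact ⟨w, hw, 0, by rw [pow_zero, Module.End.one_apply, sub_self, smul_zero]⟩
  | succ k ih =>
    intro w hw
    obtain ⟨w₁, hw₁, u₁, hu₁⟩ := ih w hw
    obtain ⟨w₂, hw₂, u₂, hu₂⟩ := hsurj w₁ hw₁
    refine ⟨w₂, hw₂, ((A - 1) ^ k) u₂ + u₁, ?_⟩
    have h2 : (A - 1) w₂ = w₁ + q • u₂ := by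
      rw [LinearMap.sub_apply, Module.End.one_apply, ← hu₂]
      abel
    rw [pow_succ, Module.End.mul_apply, h2, map_add, map_smul, smul_add, ← hu₁]
    abel

variable {b}

/-- The `b 1`-coordinate of every element of `L` lies in `(q)`, if `σ0 - 1` is surjective on `L` modulo `q Λ`
and some power of `β - 1` lies in `(q)`. -/
theorem repr_one_mem_of_surj (A : Module.End O Λ) {α β : O} (hα : A (b 0) = α • b 0)
    (hβ : A (b 1) = β • b 1) (q : O) (hnil : ∃ k : ℕ, (β - 1) ^ k ∈ Ideal.span {q})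
    (L : AddSubgroup Λ) (hsurj : ∀ w ∈ L, ∃ w' ∈ L, ∃ u : Λ, A w' - w' - w = q • u)
    (w : Λ) (hw : w ∈ L) : b.repr w 1 ∈ Ideal.span {q} := by
  obtain ⟨k, hk⟩ := hnil
  obtain ⟨w', -, u, hu⟩ := exists_pow_sub_one_preimage A q L hsurj k w hw
  have h1 : w = ((A - 1) ^ k) w' - q • u := by rw [← hu]; abel
  rw [h1, map_sub, map_smul, Finsupp.sub_apply, Finsupp.smul_apply, repr_one_pow_sub_one A hα hβ]
  refine Ideal.sub_mem _ (Ideal.mul_mem_right _ _ hk) ?_
  rw [smul_eq_mul]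
  exact Ideal.mul_mem_right _ _ (Ideal.subset_span rfl)

/-- **O3, abstract assembly, part 1**: the inertia group acts trivially modulo the line `O ∙ b 0`. -/
theorem exists_smul_eq_sub (hsep : ∀ x : O, (∀ n : ℕ, x ∈ Ideal.span {p ^ n}) → x = 0)
    (σ0 : I) {α β : O} (hα : ρ σ0 (b 0) = α • b 0) (hβ : ρ σ0 (b 1) = β • b 1)
    (hnil : ∀ n : ℕ, ∃ k : ℕ, (β - 1) ^ k ∈ Ideal.span {p ^ n})
    (L : ℕ → AddSubgroup Λ) (hquot : ∀ (n : ℕ) (σ : I) (v : Λ), ρ σ v - v ∈ L n)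
    (hsurj : ∀ n : ℕ, ∀ w ∈ L n, ∃ w' ∈ L n, ∃ u : Λ, ρ σ0 w' - w' - w = p ^ n • u)
    (σ : I) (v : Λ) : ∃ c : O, ρ σ v - v = c • b 0 := by
  have h0 : b.repr (ρ σ v - v) 1 = 0 :=
    hsep _ fun n => repr_one_mem_of_surj (ρ σ0) hα hβ (p ^ n) (hnil n) (L n) (hsurj n) _
      (hquot n σ v)
  refine ⟨b.repr (ρ σ v - v) 0, ?_⟩
  conv_lhs => rw [eq_repr_add b (ρ σ v - v)]
  rw [h0, zero_smul, add_zero]

/-- **O3, abstract assembly, part 2**: the inertia group acts on the line `O ∙ b 0` through the determinant. -/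
theorem apply_basis_zero_eq_det_smul
    (σ : I) (h0 : ∃ c : O, ρ σ (b 0) - b 0 = c • b 0) (h1 : ∃ c : O, ρ σ (b 1) - b 1 = c • b 0) :
    ρ σ (b 0) = LinearMap.det (ρ σ) • b 0 := by
  obtain ⟨c0, hc0⟩ := h0
  obtain ⟨c1, hc1⟩ := h1
  have e0 : ρ σ (b 0) = (1 + c0) • b 0 := by
    rw [add_smul, one_smul, ← hc0]; abel
  have e1 : ρ σ (b 1) = c1 • b 0 + b 1 := by
    rw [← hc1]; abel
  have hdet : LinearMap.det (ρ σ) = 1 + c0 := by
    rw [← LinearMap.det_toMatrix b, Matrix.det_fin_two]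
    simp only [LinearMap.toMatrix_apply, e0, e1, map_add, map_smul, b.repr_self, Finsupp.add_apply,
      Finsupp.smul_apply, Finsupp.single_apply, smul_eq_mul]
    simp
  rw [hdet, e0]

/-- **O3 FLAT⇒ORD, abstract assembly.** -/
theorem quadratic_of_filtration (hsep : ∀ x : O, (∀ n : ℕ, x ∈ Ideal.span {p ^ n}) → x = 0)
    (ε : I → O) (hdet : ∀ τ : I, LinearMap.det (ρ τ) = ε τ)
    (σ0 : I) {α β : O} (hα : ρ σ0 (b 0) = α • b 0) (hβ : ρ σ0 (b 1) = β • b 1)
    (hnil : ∀ n : ℕ, ∃ k : ℕ, (β - 1) ^ k ∈ Ideal.span {p ^ n})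
    (L : ℕ → AddSubgroup Λ) (hquot : ∀ (n : ℕ) (σ : I) (v : Λ), ρ σ v - v ∈ L n)
    (hsurj : ∀ n : ℕ, ∀ w ∈ L n, ∃ w' ∈ L n, ∃ u : Λ, ρ σ0 w' - w' - w = p ^ n • u) :
    (∀ (σ : I) (v : Λ), ∃ c : O, ρ σ v - v = c • b 0) ∧ (∀ τ : I, ρ τ (b 0) = ε τ • b 0) ∧
      ∀ σ τ : I, (ρ τ - ε τ • (1 : Module.End O Λ)) * (ρ σ - 1) = 0 := by
  have h1 : ∀ (σ : I) (v : Λ), ∃ c : O, ρ σ v - v = c • b 0 :=
    exists_smul_eq_sub p ρ hsep σ0 hα hβ hnil L hquot hsurj
  have h2 : ∀ τ : I, ρ τ (b 0) = ε τ • b 0 := fun τ => by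
    rw [← hdet τ]
    exact apply_basis_zero_eq_det_smul ρ τ (h1 τ (b 0)) (h1 τ (b 1))
  refine ⟨h1, h2, fun σ τ => LinearMap.ext fun v => ?_⟩
  obtain ⟨c, hc⟩ := h1 σ v
  rw [Module.End.mul_apply, LinearMap.sub_apply (ρ σ), Module.End.one_apply, hc, LinearMap.sub_apply,
    map_smul, h2 τ, LinearMap.smul_apply, Module.End.one_apply, LinearMap.zero_apply]
  rw [smul_comm, sub_self]

end Main

end Fermat.Agent.S33P.FlatOrd42
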