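/-
Programme S33, brick O3 FLAT⇒ORD (row 772; helper42): the two ring-theoretic side conditions of
`Abstract.quadratic_of_filtration` for a discrete valuation ring `O` and `p ∈ 𝔪`, `p ≠ 0`:

* `sep_of_dvr` : `⋂ₙ (p^n) = 0`;
* `nil_of_dvr` : for `x ∈ 𝔪` and every `n`, some power of `x` lies in `(p^n)`.
Mathlib only.
-/
import Mathlib

set_option autoImplicit false

namespace Fermat.Agent.S33P.FlatOrd42

open IsLocalRing

variable {O : Type*} [CommRing O] [IsDomain O] [IsDiscreteValuationRing O]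

/-- `p`-adic separatedness of a DVR (`p` a non-unit). -/
theorem sep_of_dvr {p : O} (hp : p ∈ maximalIdeal O) (x : O)
    (hx : ∀ n : ℕ, x ∈ Ideal.span {p ^ n}) : x = 0 := by
  have hne : Ideal.span {p} ≠ ⊤ := by
    intro h
    rw [Ideal.span_singleton_eq_top] at h
    exact (mem_maximalIdeal p).1 hp h
  have h := Ideal.iInf_pow_eq_bot_of_isLocalRing (Ideal.span {p}) hne
  have hx' : x ∈ ⨅ n : ℕ, Ideal.span {p} ^ n := by
    rw [Ideal.mem_iInf]
    intro n
    rw [Ideal.span_singleton_pow]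
    exact hx n
  rw [h] at hx'
  exact hx'

/-- Elements of the maximal ideal are topologically nilpotent for the `p`-adic topology (`p ≠ 0`). -/
theorem nil_of_dvr {p : O} (hp0 : p ≠ 0) {x : O} (hx : x ∈ maximalIdeal O) (n : ℕ) :
    ∃ k : ℕ, x ^ k ∈ Ideal.span {p ^ n} := by
  obtain ⟨ϖ, hϖ⟩ := IsDiscreteValuationRing.exists_irreducible O
  obtain ⟨m, hm⟩ := IsDiscreteValuationRing.associated_pow_irreducible (pow_ne_zero n hp0) hϖ
  refine ⟨m, ?_⟩
  rw [Ideal.span_singleton_eq_span_singleton.2 hm]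
  rw [(IsDiscreteValuationRing.irreducible_iff_uniformizer ϖ).1 hϖ, Ideal.mem_span_singleton] at hx
  rw [Ideal.mem_span_singleton]
  exact pow_dvd_pow_of_dvd hx m

end Fermat.Agent.S33P.FlatOrd42
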