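/-
Programme S33 (ruling R1 = report 1278), brick O3' (row 772; helper42): the Mathlib-only tools requested by
helper63 (sub-lead of the p-old half, msg 13098) for `Red63/Old.lean`:

* (M1) `exists_pow_le`        : `B` local, finite over `ℤ_[p]`, `p ∈ 𝔪` ⇒ `∀ n, ∃ k, 𝔪 ^ k ≤ (p ^ n)`;
* (M2) `mem_span_of_forall`   : `v ∈ (B ∙ b 0) ⊔ (p ^ n) • ⊤` for all `n` ⇒ `v ∈ B ∙ b 0`;
* (M3) `quadratic_of_sub_mem` : `(ρ τ - 1) Λ ⊆ B ∙ b 0` and `det ρ τ = ε τ` on `I` ⇒
                                `(ρ τ - ε τ) (ρ σ - 1) = 0` for `σ τ ∈ I`;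
* (M4) `hres_pow`             : `(f - 1) Λ ⊆ N ⊔ 𝔪 • ⊤` ⇒ `(f - 1) (𝔪 ^ i • ⊤) ⊆ 𝔪 ^ i • N ⊔ 𝔪 ^ (i + 1) • ⊤`.
-/
import Mathlib

set_option autoImplicit false

namespace Fermat.Agent.S33P.FlatOrd42

open IsLocalRing Module

/-! ### (M1) and (M2): rings finite over `ℤ_[p]` -/

section Ring

variable {p : ℕ} [Fact p.Prime] {B : Type*} [CommRing B] [IsLocalRing B] [Algebra ℤ_[p] B]
  [Module.Finite ℤ_[p] B]

theorem isNoetherianRing_of_finite_padic (q : ℕ) [Fact q.Prime] (A : Type*) [CommRing A]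
    [Algebra ℤ_[q] A] [Module.Finite ℤ_[q] A] : IsNoetherianRing A :=
  IsNoetherianRing.of_finite ℤ_[q] A

/-- Every prime of `B` containing `p` is the maximal ideal. -/
theorem eq_maximalIdeal_of_mem (P : Ideal B) [P.IsPrime] (hP : (p : B) ∈ P) : P = maximalIdeal B := by
  have : Algebra.IsIntegral ℤ_[p] B := Algebra.IsIntegral.of_finite ℤ_[p] B
  have hle : maximalIdeal ℤ_[p] ≤ P.comap (algebraMap ℤ_[p] B) := by
    rw [PadicInt.maximalIdeal_eq_span_p, Ideal.span_le, Set.singleton_subset_iff]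
    show algebraMap ℤ_[p] B (p : ℤ_[p]) ∈ P
    rw [map_natCast]
    exact hP
  have hne : P.comap (algebraMap ℤ_[p] B) ≠ ⊤ := (Ideal.IsPrime.comap _).ne_top
  have heq : P.comap (algebraMap ℤ_[p] B) = maximalIdeal ℤ_[p] :=
    ((maximalIdeal.isMaximal ℤ_[p]).eq_of_le hne hle).symm
  have hmax : (P.comap (algebraMap ℤ_[p] B)).IsMaximal := heq ▸ maximalIdeal.isMaximal ℤ_[p]
  exact eq_maximalIdeal (Ideal.isMaximal_of_isIntegral_of_isMaximal_comap P hmax)

/-- (M1), case `n = 1`. -/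
theorem exists_pow_le_span :
    ∃ k : ℕ, maximalIdeal B ^ k ≤ Ideal.span {(p : B)} := by
  have : IsNoetherianRing B := isNoetherianRing_of_finite_padic p B
  refine Ideal.exists_pow_le_of_le_radical_of_fg ?_ (IsNoetherian.noetherian _)
  rw [Ideal.radical_eq_sInf]
  refine le_sInf ?_
  rintro P ⟨hP, hPprime⟩
  have := hPprime
  rw [eq_maximalIdeal_of_mem (p := p) P (hP (Ideal.subset_span rfl))]

/-- **(M1)** `𝔪 ^ k ≤ (p ^ n)` for `k` large. -/
theorem exists_pow_le (n : ℕ) :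
    ∃ k : ℕ, maximalIdeal B ^ k ≤ Ideal.span {(p : B) ^ n} := by
  obtain ⟨k, hk⟩ := exists_pow_le_span (p := p) (B := B)
  refine ⟨k * n, ?_⟩
  rw [pow_mul, ← Ideal.span_singleton_pow]
  exact Ideal.pow_right_mono hk n

/-- `B` is `p`-adically separated. -/
theorem eq_zero_of_forall_mem_span_pow (hpB : (p : B) ∈ maximalIdeal B) (x : B)
    (hx : ∀ n : ℕ, x ∈ Ideal.span {(p : B) ^ n}) : x = 0 := by
  have : IsNoetherianRing B := isNoetherianRing_of_finite_padic p B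
  have hne : Ideal.span {(p : B)} ≠ ⊤ := by
    intro h
    rw [Ideal.span_singleton_eq_top] at h
    exact (mem_maximalIdeal _).1 hpB h
  have h := Ideal.iInf_pow_eq_bot_of_isLocalRing (Ideal.span {(p : B)}) hne
  have hx' : x ∈ ⨅ n : ℕ, Ideal.span {(p : B)} ^ n := by
    rw [Ideal.mem_iInf]
    intro n
    rw [Ideal.span_singleton_pow]
    exact hx n
  rw [h] at hx'
  exact hx'

variable {Λ : Type*} [AddCommGroup Λ] [Module B Λ] (b : Basis (Fin 2) B Λ)

omit [IsLocalRing B] in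
/-- The `b 1`-coordinate of an element of `(B ∙ b 0) ⊔ I • ⊤` lies in `I`. -/
theorem repr_one_mem_of_mem_sup (I : Ideal B) {v : Λ}
    (hv : v ∈ (B ∙ b 0) ⊔ (I • ⊤ : Submodule B Λ)) : b.repr v 1 ∈ I := by
  obtain ⟨u, hu, w, hw, rfl⟩ := Submodule.mem_sup.1 hv
  obtain ⟨c, rfl⟩ := Submodule.mem_span_singleton.1 hu
  rw [map_add, Finsupp.add_apply, map_smul, Finsupp.smul_apply, b.repr_self,
    Finsupp.single_apply, if_neg (by decide), smul_zero, zero_add]
  refine Submodule.smul_induction_on hw ?_ ?_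
  · intro r hr n _
    rw [map_smul, Finsupp.smul_apply, smul_eq_mul]
    exact I.mul_mem_right _ hr
  · intro x y hx hy
    rw [map_add, Finsupp.add_apply]
    exact I.add_mem hx hy

/-- **(M2)** `⋂ₙ ((B ∙ b 0) ⊔ (p ^ n) • ⊤) = B ∙ b 0`. -/
theorem mem_span_of_forall (hpB : (p : B) ∈ maximalIdeal B) (v : Λ)
    (hv : ∀ n : ℕ, v ∈ (B ∙ b 0) ⊔ (Ideal.span {(p : B) ^ n} • ⊤ : Submodule B Λ)) :
    v ∈ B ∙ b 0 := by
  have h0 : b.repr v 1 = 0 :=
    eq_zero_of_forall_mem_span_pow (p := p) hpB _ fun n => repr_one_mem_of_mem_sup b _ (hv n)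
  have hv' : v = b.repr v 0 • b 0 + b.repr v 1 • b 1 := by
    conv_lhs => rw [← b.sum_repr v]
    rw [Fin.sum_univ_two]
  rw [hv', h0, zero_smul, add_zero]
  exact Submodule.smul_mem _ _ (Submodule.mem_span_singleton_self _)

end Ring

/-! ### (M3): the quadratic identity -/

section Quadratic

variable {B : Type*} [CommRing B] {Λ : Type*} [AddCommGroup Λ] [Module B Λ]
  (b : Basis (Fin 2) B Λ) {G : Type*} [Monoid G] (ρ : G →* Module.End B Λ)

/-- If `ρ τ` is the identity modulo the line `B ∙ b 0`, it acts on that line through its determinant. -/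
theorem apply_basis_zero_eq_det_smul' (τ : G) (h : ∀ v : Λ, ρ τ v - v ∈ B ∙ b 0) :
    ρ τ (b 0) = LinearMap.det (ρ τ) • b 0 := by
  obtain ⟨c0, hc0⟩ := Submodule.mem_span_singleton.1 (h (b 0))
  obtain ⟨c1, hc1⟩ := Submodule.mem_span_singleton.1 (h (b 1))
  have e0 : ρ τ (b 0) = (1 + c0) • b 0 := by
    rw [add_smul, one_smul, hc0]; abel
  have e1 : ρ τ (b 1) = c1 • b 0 + b 1 := by
    rw [hc1]; abel
  have hdet : LinearMap.det (ρ τ) = 1 + c0 := by
    rw [← LinearMap.det_toMatrix b, Matrix.det_fin_two]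
    simp only [LinearMap.toMatrix_apply, e0, e1, map_add, map_smul, b.repr_self, Finsupp.add_apply,
      Finsupp.smul_apply, Finsupp.single_apply, smul_eq_mul]
    simp
  rw [hdet, e0]

/-- **(M3)** the quadratic identity from `(ρ τ - 1) Λ ⊆ B ∙ b 0` and `det ρ τ = ε τ` on `I`. -/
theorem quadratic_of_sub_mem (I : Set G) (ε : G → B)
    (h : ∀ τ ∈ I, ∀ v : Λ, ρ τ v - v ∈ B ∙ b 0) (hdet : ∀ τ ∈ I, LinearMap.det (ρ τ) = ε τ)
    (σ : G) (hσ : σ ∈ I) (τ : G) (hτ : τ ∈ I) :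
    (ρ τ - ε τ • (1 : Module.End B Λ)) * (ρ σ - 1) = 0 := by
  refine LinearMap.ext fun v => ?_
  obtain ⟨c, hc⟩ := Submodule.mem_span_singleton.1 (h σ hσ v)
  have h2 : ρ τ (b 0) = ε τ • b 0 := by
    rw [← hdet τ hτ]
    exact apply_basis_zero_eq_det_smul' b ρ τ (h τ hτ)
  rw [Module.End.mul_apply, LinearMap.sub_apply (ρ σ), Module.End.one_apply, ← hc,
    LinearMap.sub_apply, map_smul, h2, LinearMap.smul_apply, Module.End.one_apply,
    LinearMap.zero_apply, smul_comm, sub_self]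

end Quadratic

/-! ### (M4): the residual hypothesis on the `𝔪`-adic filtration -/

section Filtration

variable {B : Type*} [CommRing B] {Λ : Type*} [AddCommGroup Λ] [Module B Λ]

/-- **(M4)** if `f - 1` maps `Λ` into `N ⊔ 𝔪 • ⊤`, it maps `𝔪 ^ i • ⊤` into
`𝔪 ^ i • N ⊔ 𝔪 ^ (i + 1) • ⊤`. -/
theorem hres_pow (𝔪 : Ideal B) (N : Submodule B Λ) (f : Module.End B Λ)
    (hf : ∀ v : Λ, f v - v ∈ N ⊔ (𝔪 • ⊤ : Submodule B Λ)) (i : ℕ) (y : Λ)
    (hy : y ∈ (𝔪 ^ i • ⊤ : Submodule B Λ)) :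
    f y - y ∈ (𝔪 ^ i • N) ⊔ (𝔪 ^ (i + 1) • ⊤ : Submodule B Λ) := by
  refine Submodule.smul_induction_on hy ?_ ?_
  · intro r hr v _
    have h1 : f (r • v) - r • v = r • (f v - v) := by rw [map_smul, smul_sub]
    rw [h1]
    obtain ⟨u, hu, w, hw, huw⟩ := Submodule.mem_sup.1 (hf v)
    rw [← huw, smul_add]
    refine Submodule.add_mem_sup (Submodule.smul_mem_smul hr hu) ?_
    rw [pow_succ, mul_smul]
    exact Submodule.smul_mem_smul hr hw
  · intro x z hx hz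
    have h1 : f (x + z) - (x + z) = (f x - x) + (f z - z) := by rw [map_add]; abel
    rw [h1]
    exact Submodule.add_mem _ hx hz

end Filtration

end Fermat.Agent.S33P.FlatOrd42
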